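/-
S22, route B (Eichler integrals / modular symbols in the dual space), helper8.
Basic definitions: normalised primitives at `i∞`, the binary-form symbol and the modular symbol.
-/
import Mathlib
import Fermat.Prelude.Def_CuspForm_HeckeAlgebra

set_option autoImplicit false

open UpperHalfPlane Filter Topology
open scoped MatrixGroups Manifold ModularForm

namespace Fermat.Agent.S22.H8

noncomputable section

/-- The class of functions on the upper half plane we integrate: holomorphic, periodic and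
vanishing at `i∞`. Every cusp form for `Γ₀(N)` is of this kind. -/
structure IsGood (f : ℍ → ℂ) : Prop where
  holo : MDiff f
  per : ∃ h : ℝ, 0 < h ∧ Function.Periodic (f ∘ ofComplex) h
  zero : IsZeroAtImInfty f

/-- `J` is a primitive of `w ↦ f w * w ^ m` on the upper half plane which tends to `0`
along every vertical ray. -/
def IsNormPrim (f : ℍ → ℂ) (m : ℕ) (J : ℂ → ℂ) : Prop :=
  (∀ z : ℂ, 0 < z.im → HasDerivAt J ((f ∘ ofComplex) z * z ^ m) z) ∧
    ∀ x : ℝ, Tendsto (fun t : ℝ => J (x + t * Complex.I)) atTop (𝓝 0)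

/-- The normalised primitive of `w ↦ f w * w ^ m` (a junk value if there is none). -/
def primJ (f : ℍ → ℂ) (m : ℕ) : ℂ → ℂ :=
  Classical.epsilon (IsNormPrim f m)

/-- `symb n f v z = ∫_{i∞}^z f(w) (v 0 - w * v 1)^n dw`, as a binary form in `v`. -/
def symb (n : ℕ) (f : ℍ → ℂ) (v : Fin 2 → ℂ) (z : ℂ) : ℂ :=
  ∑ m ∈ Finset.range (n + 1), (n.choose m : ℂ) * v 0 ^ (n - m) * (-(v 1)) ^ m * primJ f m z

/-- The action of a real `2 × 2` matrix on complex column vectors. -/
def actV (A : GL (Fin 2) ℝ) (v : Fin 2 → ℂ) : Fin 2 → ℂ :=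
  ((A : Matrix (Fin 2) (Fin 2) ℝ).map Complex.ofReal).mulVec v

/-- The Möbius transformation attached to `A`, as a function on `ℂ`. -/
def mob (A : GL (Fin 2) ℝ) (z : ℂ) : ℂ := num A z / denom A z

/-- The modular symbol `∫_{i∞}^{A i∞} f(w) ((A v) 0 - w (A v) 1)^n dw`, written with the base
point `i` (it does not depend on the base point when `f ∣[n+2] A = f`). -/
def msym (n : ℕ) (f : ℍ → ℂ) (A : GL (Fin 2) ℝ) (v : Fin 2 → ℂ) : ℂ :=
  symb n f (actV A v) (mob A Complex.I) - symb n f v Complex.I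

/-- The function `τ ↦ ∫_{i∞}^τ f(w) (τ - w)^n dw`, of weight `-n`. -/
def gfun (n : ℕ) (f : ℍ → ℂ) (τ : ℍ) : ℂ := symb n f ![(τ : ℂ), 1] τ

end

end Fermat.Agent.S22.H8
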