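/-
S22, route B, helper8: uniqueness of primitives on the upper half plane.
-/
import Fermat.Agent.S22.H8.Defs

set_option autoImplicit false

open UpperHalfPlane Filter Topology
open scoped MatrixGroups Manifold ModularForm

namespace Fermat.Agent.S22.H8

noncomputable section

/-- A function with vanishing derivative on the upper half plane is constant there. -/
theorem eq_of_hasDerivAt_zero {G : ℂ → ℂ} (h : ∀ z : ℂ, 0 < z.im → HasDerivAt G 0 z)
    {z w : ℂ} (hz : 0 < z.im) (hw : 0 < w.im) : G z = G w := by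
  refine isOpen_upperHalfPlaneSet.is_const_of_deriv_eq_zero
    (convex_halfSpace_im_gt 0).isPreconnected
    (fun x hx => (h x hx).differentiableAt.differentiableWithinAt)
    (fun x hx => (h x hx).deriv) hz hw

/-- Two functions with the same derivative on the upper half plane which both tend to `0`
along the imaginary axis agree on the upper half plane. -/
theorem eq_of_hasDerivAt_of_tendsto {G₁ G₂ g : ℂ → ℂ}
    (h₁ : ∀ z : ℂ, 0 < z.im → HasDerivAt G₁ (g z) z)
    (h₂ : ∀ z : ℂ, 0 < z.im → HasDerivAt G₂ (g z) z)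
    (l₁ : Tendsto (fun t : ℝ => G₁ (t * Complex.I)) atTop (𝓝 0))
    (l₂ : Tendsto (fun t : ℝ => G₂ (t * Complex.I)) atTop (𝓝 0))
    {z : ℂ} (hz : 0 < z.im) : G₁ z = G₂ z := by
  have hD : ∀ w : ℂ, 0 < w.im → HasDerivAt (fun u => G₁ u - G₂ u) 0 w := fun w hw => by
    simpa using (h₁ w hw).fun_sub (h₂ w hw)
  have hconst : ∀ t : ℝ, 0 < t → G₁ (t * Complex.I) - G₂ (t * Complex.I) = G₁ z - G₂ z :=
    fun t ht => eq_of_hasDerivAt_zero hD (by simpa using ht) hz
  have hlim : Tendsto (fun t : ℝ => G₁ (t * Complex.I) - G₂ (t * Complex.I)) atTop (𝓝 (0 - 0)) :=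
    l₁.sub l₂
  have hlim' : Tendsto (fun _ : ℝ => G₁ z - G₂ z) atTop (𝓝 (0 - 0)) := by
    refine hlim.congr' ?_
    filter_upwards [eventually_gt_atTop 0] with t ht using hconst t ht
  have := tendsto_nhds_unique hlim' tendsto_const_nhds
  rw [sub_zero] at this
  exact sub_eq_zero.mp this.symm

end

end Fermat.Agent.S22.H8
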