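/-
S22, route B, helper8: existence of normalised primitives (from helper68's periodic primitives).
-/
import Fermat.Agent.S22.H8.Uniq
import Fermat.Agent.S22.H68.NormPrim

set_option autoImplicit false

open UpperHalfPlane Filter Topology
open scoped MatrixGroups Manifold ModularForm

namespace Fermat.Agent.S22.H8

noncomputable section

theorem exists_isNormPrim {f : ℍ → ℂ} (hf : IsGood f) (m : ℕ) : ∃ J, IsNormPrim f m J := by
  obtain ⟨h, hh, hper⟩ := hf.per
  exact Fermat.Agent.S22.H68.exists_normPrim h hh f hf.holo hper hf.zero m

end

end Fermat.Agent.S22.H8
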