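/-
S22, route B, helper8: core lemmas on normalised primitives and the binary-form symbol.
-/
import Fermat.Agent.S22.H8.Prim
import Fermat.Prelude.Thm_CongruenceSubgroup_one_mem_strictPeriods_Gamma0

set_option autoImplicit false

open UpperHalfPlane Filter Topology CongruenceSubgroup Matrix.SpecialLinearGroup
open scoped MatrixGroups Manifold ModularForm

namespace Fermat.Agent.S22.H8

noncomputable section

theorem isGood_cuspForm {N : ℕ} [NeZero N] {k : ℤ} (f : CuspForm (Gamma0 N) k) :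
    IsGood (f : ℍ → ℂ) :=
  ⟨CuspFormClass.holo f, ⟨1, one_pos, by
    simpa using SlashInvariantFormClass.periodic_comp_ofComplex f
      (CongruenceSubgroup.one_mem_strictPeriods_Gamma0 N)⟩, CuspFormClass.zero_at_infty f⟩

theorem primJ_spec {f : ℍ → ℂ} (hf : IsGood f) (m : ℕ) : IsNormPrim f m (primJ f m) :=
  Classical.epsilon_spec (exists_isNormPrim hf m)

theorem hasDerivAt_primJ {f : ℍ → ℂ} (hf : IsGood f) (m : ℕ) {z : ℂ} (hz : 0 < z.im) :
    HasDerivAt (primJ f m) ((f ∘ ofComplex) z * z ^ m) z :=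
  (primJ_spec hf m).1 z hz

theorem tendsto_primJ {f : ℍ → ℂ} (hf : IsGood f) (m : ℕ) (x : ℝ) :
    Tendsto (fun t : ℝ => primJ f m (x + t * Complex.I)) atTop (𝓝 0) :=
  (primJ_spec hf m).2 x

theorem tendsto_primJ_zero {f : ℍ → ℂ} (hf : IsGood f) (m : ℕ) :
    Tendsto (fun t : ℝ => primJ f m (t * Complex.I)) atTop (𝓝 0) := by
  simpa using tendsto_primJ hf m 0

theorem primJ_add {f g : ℍ → ℂ} (hf : IsGood f) (hg : IsGood g) (hfg : IsGood (f + g))
    (m : ℕ) {z : ℂ} (hz : 0 < z.im) : primJ (f + g) m z = primJ f m z + primJ g m z := by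
  refine eq_of_hasDerivAt_of_tendsto (G₂ := fun w => primJ f m w + primJ g m w)
    (fun w hw => hasDerivAt_primJ hfg m hw) (fun w hw => ?_) (tendsto_primJ_zero hfg m) ?_ hz
  · refine ((hasDerivAt_primJ hf m hw).fun_add (hasDerivAt_primJ hg m hw)).congr_deriv ?_
    simp only [Function.comp_apply, Pi.add_apply]
    ring
  · simpa using (tendsto_primJ_zero hf m).add (tendsto_primJ_zero hg m)

theorem primJ_smul {f : ℍ → ℂ} (hf : IsGood f) (c : ℂ) (hcf : IsGood (c • f))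
    (m : ℕ) {z : ℂ} (hz : 0 < z.im) : primJ (c • f) m z = c * primJ f m z := by
  refine eq_of_hasDerivAt_of_tendsto (G₂ := fun w => c * primJ f m w)
    (fun w hw => hasDerivAt_primJ hcf m hw) (fun w hw => ?_) (tendsto_primJ_zero hcf m) ?_ hz
  · refine ((hasDerivAt_primJ hf m hw).const_mul c).congr_deriv ?_
    simp only [Function.comp_apply, Pi.smul_apply, smul_eq_mul]
    ring
  · simpa using (tendsto_primJ_zero hf m).const_mul c

theorem hasDerivAt_symb {n : ℕ} {f : ℍ → ℂ} (hf : IsGood f) (v : Fin 2 → ℂ) (τ : ℍ) :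
    HasDerivAt (symb n f v) (f τ * (v 0 - τ * v 1) ^ n) τ := by
  have h1 : ∀ m ∈ Finset.range (n + 1), HasDerivAt
      (fun z => (n.choose m : ℂ) * v 0 ^ (n - m) * (-(v 1)) ^ m * primJ f m z)
      ((n.choose m : ℂ) * v 0 ^ (n - m) * (-(v 1)) ^ m * (f τ * (τ : ℂ) ^ m)) τ := by
    intro m _
    have := (hasDerivAt_primJ hf m τ.im_pos).const_mul
      ((n.choose m : ℂ) * v 0 ^ (n - m) * (-(v 1)) ^ m)
    simpa [Function.comp, ofComplex_apply] using this
  have h2 : HasDerivAt (symb n f v) _ τ := HasDerivAt.fun_sum h1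
  refine h2.congr_deriv ?_
  rw [show v 0 - τ * v 1 = (-(v 1) * τ) + v 0 by ring, add_pow, Finset.mul_sum]
  refine Finset.sum_congr rfl fun m _ => ?_
  ring

theorem tendsto_symb {n : ℕ} {f : ℍ → ℂ} (hf : IsGood f) (v : Fin 2 → ℂ) (x : ℝ) :
    Tendsto (fun t : ℝ => symb n f v (x + t * Complex.I)) atTop (𝓝 0) := by
  have := tendsto_finsetSum (Finset.range (n + 1)) (fun m _ =>
    (tendsto_primJ hf m x).const_mul ((n.choose m : ℂ) * v 0 ^ (n - m) * (-(v 1)) ^ m))
  simpa [symb] using this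

theorem symb_smul_vec (n : ℕ) (f : ℍ → ℂ) (c : ℂ) (v : Fin 2 → ℂ) (z : ℂ) :
    symb n f (c • v) z = c ^ n * symb n f v z := by
  unfold symb
  rw [Finset.mul_sum]
  refine Finset.sum_congr rfl fun m hm => ?_
  have hm' : m ≤ n := Nat.lt_succ_iff.mp (Finset.mem_range.mp hm)
  have : c ^ n = c ^ (n - m) * c ^ m := by rw [← pow_add, Nat.sub_add_cancel hm']
  simp only [Pi.smul_apply, smul_eq_mul, mul_pow, this]
  rw [show -(c * v 1) = c * -(v 1) by ring, mul_pow]
  ring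


theorem hasDerivAt_mob (A : GL (Fin 2) ℝ) (τ : ℍ) :
    HasDerivAt (mob A) ((A.det.val : ℂ) / denom A τ ^ 2) τ := by
  have hd : denom A τ ≠ 0 := denom_ne_zero A τ
  have h1 : HasDerivAt (fun w : ℂ => num A w) ((A 0 0 : ℝ) : ℂ) τ := by
    unfold num
    simpa using ((hasDerivAt_id (τ : ℂ)).const_mul ((A 0 0 : ℝ) : ℂ)).add_const ((A 0 1 : ℝ) : ℂ)
  have h2 : HasDerivAt (fun w : ℂ => denom A w) ((A 1 0 : ℝ) : ℂ) τ := by
    unfold denom
    simpa using ((hasDerivAt_id (τ : ℂ)).const_mul ((A 1 0 : ℝ) : ℂ)).add_const ((A 1 1 : ℝ) : ℂ)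
  have h3 := h1.div h2 hd
  refine h3.congr_deriv ?_
  rw [Matrix.GeneralLinearGroup.val_det_apply, Matrix.det_fin_two]
  simp only [num, denom]
  push_cast
  ring

theorem actV_apply_zero (A : GL (Fin 2) ℝ) (v : Fin 2 → ℂ) :
    actV A v 0 = (A 0 0 : ℝ) * v 0 + (A 0 1 : ℝ) * v 1 := by
  simp [actV, Matrix.mulVec, dotProduct, Fin.sum_univ_two]

theorem actV_apply_one (A : GL (Fin 2) ℝ) (v : Fin 2 → ℂ) :
    actV A v 1 = (A 1 0 : ℝ) * v 0 + (A 1 1 : ℝ) * v 1 := by
  simp [actV, Matrix.mulVec, dotProduct, Fin.sum_univ_two]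

theorem mob_coe {A : GL (Fin 2) ℝ} (hA : 0 < A.det.val) (τ : ℍ) : mob A τ = ((A • τ : ℍ) : ℂ) :=
  (coe_smul_of_det_pos hA τ).symm

/-- KEY chain rule -/
theorem hasDerivAt_symb_mob {n : ℕ} {f : ℍ → ℂ} (hf : IsGood f) {A : GL (Fin 2) ℝ}
    (hA : 0 < A.det.val) (v : Fin 2 → ℂ) (τ : ℍ) :
    HasDerivAt (fun w : ℂ => symb n f (actV A v) (mob A w))
      ((f ∣[(n : ℤ) + 2] A) τ * (v 0 - τ * v 1) ^ n) τ := by
  have hd : denom A τ ≠ 0 := denom_ne_zero A τ
  have h1 := hasDerivAt_symb (n := n) hf (actV A v) (A • τ)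
  rw [← mob_coe hA] at h1
  have h2 := h1.comp (τ : ℂ) (hasDerivAt_mob A τ)
  refine h2.congr_deriv ?_
  rw [ModularForm.slash_apply, UpperHalfPlane.σ, if_pos hA, abs_of_pos hA, actV_apply_zero,
    actV_apply_one, ContinuousAlgEquiv.refl_apply]
  have hdet : ((A.det.val : ℝ) : ℂ) = (A 0 0 : ℝ) * (A 1 1 : ℝ) - (A 0 1 : ℝ) * (A 1 0 : ℝ) := by
    rw [Matrix.GeneralLinearGroup.val_det_apply, Matrix.det_fin_two]
    push_cast
    ring
  have hkey : ((A 0 0 : ℝ) : ℂ) * v 0 + (A 0 1 : ℝ) * v 1 -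
      mob A τ * ((A 1 0 : ℝ) * v 0 + (A 1 1 : ℝ) * v 1) =
      (A.det.val : ℝ) * (v 0 - τ * v 1) / denom A τ := by
    have hm : mob A τ * denom A τ = num A τ := by rw [mob, div_mul_cancel₀ _ hd]
    rw [eq_div_iff hd, sub_mul, mul_right_comm (mob A τ), hm, hdet]
    simp only [num, denom]
    ring
  rw [hkey, show ((n : ℤ) + 2 - 1) = ((n + 1 : ℕ) : ℤ) by push_cast; ring, zpow_natCast,
    show (-((n : ℤ) + 2)) = -((n + 2 : ℕ) : ℤ) by push_cast; ring, zpow_neg, zpow_natCast]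
  rw [div_pow, mul_pow]
  field_simp
  ring

theorem actV_mul (A B : GL (Fin 2) ℝ) (v : Fin 2 → ℂ) : actV (A * B) v = actV A (actV B v) := by
  funext i
  fin_cases i
  · simp only [Fin.zero_eta, actV_apply_zero, actV_apply_one, Units.val_mul, Matrix.mul_apply,
      Fin.sum_univ_two]
    push_cast
    ring
  · simp only [Fin.mk_one, actV_apply_zero, actV_apply_one, Units.val_mul, Matrix.mul_apply,
      Fin.sum_univ_two]
    push_cast
    ring

theorem actV_one (v : Fin 2 → ℂ) : actV 1 v = v := by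
  funext i
  fin_cases i <;> simp [actV_apply_zero, actV_apply_one]

theorem det_mul_pos {A B : GL (Fin 2) ℝ} (hA : 0 < A.det.val) (hB : 0 < B.det.val) :
    0 < (A * B).det.val := by
  rw [map_mul, Units.val_mul]
  exact mul_pos hA hB

theorem mob_mul {A B : GL (Fin 2) ℝ} (hA : 0 < A.det.val) (hB : 0 < B.det.val) (τ : ℍ) :
    mob (A * B) τ = mob A (mob B τ) := by
  rw [mob_coe (det_mul_pos hA hB), mul_smul, mob_coe hB, mob_coe hA]

/-- Constancy: the modular symbol does not depend on the base point. -/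
theorem symb_mob_eq {n : ℕ} {f : ℍ → ℂ} (hf : IsGood f) {A : GL (Fin 2) ℝ}
    (hA : 0 < A.det.val) (hfA : f ∣[(n : ℤ) + 2] A = f) (v : Fin 2 → ℂ) (τ : ℍ) :
    symb n f (actV A v) (mob A τ) = msym n f A v + symb n f v τ := by
  have hD : ∀ z : ℂ, 0 < z.im →
      HasDerivAt (fun w => symb n f (actV A v) (mob A w) - symb n f v w) 0 z := by
    intro z hz
    have h1 := hasDerivAt_symb_mob (n := n) hf hA v ⟨z, hz⟩
    have h2 := hasDerivAt_symb (n := n) hf v ⟨z, hz⟩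
    rw [hfA] at h1
    simpa using h1.fun_sub h2
  have := eq_of_hasDerivAt_zero hD τ.im_pos (show 0 < Complex.I.im by simp)
  simp only [msym]
  linear_combination this

/-- The cocycle relation. -/
theorem msym_mul {n : ℕ} {f : ℍ → ℂ} (hf : IsGood f) {A B : GL (Fin 2) ℝ}
    (hA : 0 < A.det.val) (hB : 0 < B.det.val) (hfA : f ∣[(n : ℤ) + 2] A = f)
    (v : Fin 2 → ℂ) :
    msym n f (A * B) v = msym n f A (actV B v) + msym n f B v := by
  have h1 := symb_mob_eq hf hA hfA (actV B v) (B • UpperHalfPlane.I)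
  rw [← mob_coe hB, UpperHalfPlane.coe_I] at h1
  have h2 := mob_mul hA hB UpperHalfPlane.I
  rw [UpperHalfPlane.coe_I] at h2
  simp only [msym, actV_mul, h2, h1]
  ring

theorem msym_one (n : ℕ) (f : ℍ → ℂ) (v : Fin 2 → ℂ) : msym n f 1 v = 0 := by
  simp [msym, actV_one, mob, num, denom]

end

end Fermat.Agent.S22.H8
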