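/-
S22, route B, helper8: the abstract Hecke relation for modular symbols.
-/
import Fermat.Agent.S22.H8.Core

set_option autoImplicit false

open UpperHalfPlane Filter Topology CongruenceSubgroup Matrix.SpecialLinearGroup
open scoped MatrixGroups Manifold ModularForm

namespace Fermat.Agent.S22.H8

noncomputable section

/-- The symbol of `∑ i, f ∣[n+2] α i` is the sum of the transported symbols, when all `α i`
map vertical rays to vertical rays. -/
theorem symb_sum_slash {n : ℕ} {ι : Type*} [Fintype ι] (α : ι → GL (Fin 2) ℝ)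
    (hdet : ∀ i, 0 < (α i).det.val)
    (hray : ∀ i, ∃ r x : ℝ, 0 < r ∧ ∀ z : ℂ, mob (α i) z = r * z + x)
    {f Tf : ℍ → ℂ} (hf : IsGood f) (hTf : IsGood Tf)
    (hT : Tf = ∑ i, f ∣[(n : ℤ) + 2] α i) (v : Fin 2 → ℂ) {z : ℂ} (hz : 0 < z.im) :
    symb n Tf v z = ∑ i, symb n f (actV (α i) v) (mob (α i) z) := by
  refine eq_of_hasDerivAt_of_tendsto
    (g := fun w => (Tf ∘ ofComplex) w * (v 0 - w * v 1) ^ n)
    (G₂ := fun w => ∑ i, symb n f (actV (α i) v) (mob (α i) w)) (fun w hw => ?_) (fun w hw => ?_)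
    ?_ ?_ hz
  · have := hasDerivAt_symb (n := n) hTf v ⟨w, hw⟩
    simpa [Function.comp, ofComplex_apply_of_im_pos hw] using this
  · have h1 : ∀ i ∈ Finset.univ, HasDerivAt (fun u : ℂ => symb n f (actV (α i) v) (mob (α i) u))
        ((f ∣[(n : ℤ) + 2] α i) ⟨w, hw⟩ * (v 0 - w * v 1) ^ n) w := fun i _ =>
      hasDerivAt_symb_mob (n := n) hf (hdet i) v ⟨w, hw⟩
    refine (HasDerivAt.fun_sum h1).congr_deriv ?_
    rw [← Finset.sum_mul, Function.comp_apply, ofComplex_apply_of_im_pos hw, hT, Finset.sum_apply]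
  · simpa using tendsto_symb (n := n) hTf v 0
  · have h1 : ∀ i ∈ Finset.univ, Tendsto
        (fun t : ℝ => symb n f (actV (α i) v) (mob (α i) (t * Complex.I))) atTop (𝓝 0) := by
      intro i _
      obtain ⟨r, x, hr, hrx⟩ := hray i
      have h2 := (tendsto_symb (n := n) hf (actV (α i) v) x).comp
        (tendsto_id.const_mul_atTop hr)
      refine h2.congr fun t => ?_
      simp only [Function.comp_apply, id_eq, hrx]
      push_cast
      ring_nf
    simpa using tendsto_finsetSum _ h1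

/-- The Hecke relation for modular symbols, in abstract form. -/
theorem msym_hecke {n : ℕ} {ι : Type*} [Fintype ι] (α : ι → GL (Fin 2) ℝ)
    (hdet : ∀ i, 0 < (α i).det.val)
    (hray : ∀ i, ∃ r x : ℝ, 0 < r ∧ ∀ z : ℂ, mob (α i) z = r * z + x)
    {f Tf : ℍ → ℂ} (hf : IsGood f) (hTf : IsGood Tf)
    (hT : Tf = ∑ i, f ∣[(n : ℤ) + 2] α i)
    (A : GL (Fin 2) ℝ) (hA : 0 < A.det.val)
    (σ : Equiv.Perm ι) (A' : ι → GL (Fin 2) ℝ) (hA' : ∀ i, 0 < (A' i).det.val)
    (hfA' : ∀ i, f ∣[(n : ℤ) + 2] A' i = f)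
    (hmul : ∀ i, α i * A = A' i * α (σ i)) (v : Fin 2 → ℂ) :
    msym n Tf A v = ∑ i, msym n f (A' i) (actV (α (σ i)) v) := by
  have hI : (0 : ℝ) < Complex.I.im := by simp
  have hAI : 0 < (mob A Complex.I).im := by
    have := mob_coe hA UpperHalfPlane.I
    rw [UpperHalfPlane.coe_I] at this
    rw [this]
    exact (A • UpperHalfPlane.I).im_pos
  have key : ∀ i, symb n f (actV (α i) (actV A v)) (mob (α i) (mob A Complex.I)) =
      msym n f (A' i) (actV (α (σ i)) v) +
        symb n f (actV (α (σ i)) v) (mob (α (σ i)) Complex.I) := by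
    intro i
    have h1 := symb_mob_eq hf (hA' i) (hfA' i) (actV (α (σ i)) v) (α (σ i) • UpperHalfPlane.I)
    rw [← mob_coe (hdet (σ i)), UpperHalfPlane.coe_I] at h1
    rw [← h1, ← actV_mul, ← actV_mul, ← hmul i]
    congr 1
    have e1 := mob_mul (hdet i) hA UpperHalfPlane.I
    have e2 := mob_mul (hA' i) (hdet (σ i)) UpperHalfPlane.I
    rw [UpperHalfPlane.coe_I] at e1 e2
    rw [← e1, ← e2, hmul i]
  rw [show msym n Tf A v = symb n Tf (actV A v) (mob A Complex.I) - symb n Tf v Complex.I from rfl,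
    symb_sum_slash α hdet hray hf hTf hT _ hAI, symb_sum_slash α hdet hray hf hTf hT _ hI]
  simp only [key, Finset.sum_add_distrib]
  rw [Equiv.sum_comp σ (fun i => symb n f (actV (α i) v) (mob (α i) Complex.I))]
  ring

end

end Fermat.Agent.S22.H8
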