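/-
S22, route B, helper8: the lattice of modular symbols in the dual of the space of cusp forms,
and its finite generation.
-/
import Fermat.Agent.S22.H8.Hecke

set_option autoImplicit false

open UpperHalfPlane Filter Topology CongruenceSubgroup Matrix.SpecialLinearGroup
open scoped MatrixGroups Manifold ModularForm

namespace Fermat.Agent.S22.H8

noncomputable section

theorem det_mapGL_pos (γ : SL(2, ℤ)) : 0 < (mapGL ℝ γ).det.val := by simp

theorem im_mob_pos {A : GL (Fin 2) ℝ} (hA : 0 < A.det.val) (τ : ℍ) : 0 < (mob A τ).im := by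
  rw [mob_coe hA]
  exact (A • τ).im_pos

theorem symb_add {n : ℕ} {f g : ℍ → ℂ} (hf : IsGood f) (hg : IsGood g) (hfg : IsGood (f + g))
    (v : Fin 2 → ℂ) {z : ℂ} (hz : 0 < z.im) :
    symb n (f + g) v z = symb n f v z + symb n g v z := by
  simp only [symb, primJ_add hf hg hfg _ hz, mul_add, Finset.sum_add_distrib]

theorem symb_smul_fun {n : ℕ} {f : ℍ → ℂ} (hf : IsGood f) (c : ℂ) (hcf : IsGood (c • f))
    (v : Fin 2 → ℂ) {z : ℂ} (hz : 0 < z.im) :
    symb n (c • f) v z = c * symb n f v z := by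
  simp only [symb, primJ_smul hf c hcf _ hz, Finset.mul_sum]
  refine Finset.sum_congr rfl fun m _ => ?_
  ring

variable (N : ℕ) [NeZero N] (n : ℕ)

/-- The value at `τ` of the normalised primitive of `f(w) w^m`, as a linear functional of the
cusp form `f`. -/
def epsFun (m : ℕ) (τ : ℍ) : Module.Dual ℂ (CuspForm (Gamma0 N) ((n : ℤ) + 2)) where
  toFun f := primJ f m τ
  map_add' f g := by
    rw [FunLike.coe_add]
    exact primJ_add (isGood_cuspForm f) (isGood_cuspForm g)
      (by rw [← FunLike.coe_add]; exact isGood_cuspForm (f + g)) m τ.im_pos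
  map_smul' c f := by
    rw [FunLike.coe_smul]
    exact primJ_smul (isGood_cuspForm f) c
      (by rw [← FunLike.coe_smul]; exact isGood_cuspForm (c • f)) m τ.im_pos

/-- The modular symbol `f ↦ msym n f γ v` as a linear functional on cusp forms. -/
def piFun (γ : SL(2, ℤ)) (v : Fin 2 → ℂ) : Module.Dual ℂ (CuspForm (Gamma0 N) ((n : ℤ) + 2)) where
  toFun f := msym n f (mapGL ℝ γ) v
  map_add' f g := by
    have hI : (0 : ℝ) < Complex.I.im := by simp
    have hγ : 0 < (mob (mapGL ℝ γ) Complex.I).im := by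
      simpa using im_mob_pos (det_mapGL_pos γ) UpperHalfPlane.I
    have hfg : IsGood ((f : ℍ → ℂ) + g) := by
      rw [← FunLike.coe_add]; exact isGood_cuspForm (f + g)
    rw [FunLike.coe_add]
    simp only [msym, symb_add (isGood_cuspForm f) (isGood_cuspForm g) hfg _ hI,
      symb_add (isGood_cuspForm f) (isGood_cuspForm g) hfg _ hγ]
    ring
  map_smul' c f := by
    have hI : (0 : ℝ) < Complex.I.im := by simp
    have hγ : 0 < (mob (mapGL ℝ γ) Complex.I).im := by
      simpa using im_mob_pos (det_mapGL_pos γ) UpperHalfPlane.I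
    have hcf : IsGood (c • (f : ℍ → ℂ)) := by
      rw [← FunLike.coe_smul]; exact isGood_cuspForm (c • f)
    rw [FunLike.coe_smul]
    simp only [msym, symb_smul_fun (isGood_cuspForm f) c hcf _ hI,
      symb_smul_fun (isGood_cuspForm f) c hcf _ hγ, RingHom.id_apply, smul_eq_mul]
    ring

@[simp] theorem piFun_apply (γ : SL(2, ℤ)) (v : Fin 2 → ℂ)
    (f : CuspForm (Gamma0 N) ((n : ℤ) + 2)) : piFun N n γ v f = msym n f (mapGL ℝ γ) v := rfl

@[simp] theorem epsFun_apply (m : ℕ) (τ : ℍ)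
    (f : CuspForm (Gamma0 N) ((n : ℤ) + 2)) : epsFun N n m τ f = primJ f m τ := rfl

/-- Integer vectors as complex vectors. -/
def intVec (w : Fin 2 → ℤ) : Fin 2 → ℂ := fun i => (w i : ℂ)

/-- The lattice of modular symbols. -/
def Lat : Submodule ℤ (Module.Dual ℂ (CuspForm (Gamma0 N) ((n : ℤ) + 2))) :=
  Submodule.span ℤ {π | ∃ γ ∈ Gamma0 N, ∃ w : Fin 2 → ℤ, π = piFun N n γ (intVec w)}

theorem actV_mapGL_intVec (γ : SL(2, ℤ)) (w : Fin 2 → ℤ) :
    actV (mapGL ℝ γ) (intVec w) = intVec ((γ : Matrix (Fin 2) (Fin 2) ℤ).mulVec w) := by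
  funext i
  fin_cases i
  · simp [actV_apply_zero, intVec, Matrix.mulVec, dotProduct, Fin.sum_univ_two]
  · simp [actV_apply_one, intVec, Matrix.mulVec, dotProduct, Fin.sum_univ_two]

omit [NeZero N] in
theorem slash_mapGL_eq {k : ℤ} (f : CuspForm (Gamma0 N) k) {γ : SL(2, ℤ)} (hγ : γ ∈ Gamma0 N) :
    (f : ℍ → ℂ) ∣[k] (mapGL ℝ γ) = f :=
  SlashInvariantFormClass.slash_action_eq f _ (Subgroup.mem_map_of_mem _ hγ)

theorem symb_intVec (f : ℍ → ℂ) (u : Fin 2 → ℤ) (z : ℂ) :
    symb n f (intVec u) z = ∑ m ∈ Finset.range (n + 1),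
      ((n.choose m * u 0 ^ (n - m) * (-(u 1)) ^ m : ℤ) : ℂ) * primJ f m z := by
  simp [symb, intVec]

theorem piFun_intVec_eq (γ : SL(2, ℤ)) (w : Fin 2 → ℤ) :
    piFun N n γ (intVec w) =
      (∑ m ∈ Finset.range (n + 1),
        (n.choose m * ((γ : Matrix (Fin 2) (Fin 2) ℤ).mulVec w) 0 ^ (n - m) *
          (-(((γ : Matrix (Fin 2) (Fin 2) ℤ).mulVec w) 1)) ^ m : ℤ) •
            epsFun N n m (mapGL ℝ γ • UpperHalfPlane.I)) -
      ∑ m ∈ Finset.range (n + 1),
        (n.choose m * w 0 ^ (n - m) * (-(w 1)) ^ m : ℤ) • epsFun N n m UpperHalfPlane.I := by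
  ext f
  have h := mob_coe (det_mapGL_pos γ) UpperHalfPlane.I
  rw [UpperHalfPlane.coe_I] at h
  simp only [piFun_apply, msym, actV_mapGL_intVec, symb_intVec, LinearMap.sub_apply,
    LinearMap.coe_sum, Finset.sum_apply, LinearMap.smul_apply, epsFun_apply, zsmul_eq_mul, h,
    UpperHalfPlane.coe_I]

theorem piFun_one (v : Fin 2 → ℂ) : piFun N n 1 v = 0 := by
  ext f
  simp [msym_one]

theorem piFun_mul {γ δ : SL(2, ℤ)} (hγ : γ ∈ Gamma0 N) (w : Fin 2 → ℤ) :
    piFun N n (γ * δ) (intVec w) =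
      piFun N n γ (intVec ((δ : Matrix (Fin 2) (Fin 2) ℤ).mulVec w)) + piFun N n δ (intVec w) := by
  ext f
  simp only [piFun_apply, LinearMap.add_apply, map_mul, ← actV_mapGL_intVec]
  exact msym_mul (isGood_cuspForm f) (det_mapGL_pos γ) (det_mapGL_pos δ)
    (slash_mapGL_eq N f hγ) _

theorem piFun_inv {γ : SL(2, ℤ)} (hγ : γ ∈ Gamma0 N) (w : Fin 2 → ℤ) :
    piFun N n γ⁻¹ (intVec w) =
      -piFun N n γ (intVec (((γ⁻¹ : SL(2, ℤ)) : Matrix (Fin 2) (Fin 2) ℤ).mulVec w)) := by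
  have h := piFun_mul N n (δ := γ⁻¹) hγ w
  rw [mul_inv_cancel, piFun_one] at h
  exact eq_neg_of_add_eq_zero_right h.symm

/-- The lattice of modular symbols is finitely generated. -/
theorem Lat_fg : (Lat N n).FG := by
  have : Group.FG SL(2, ℤ) := Group.fg_iff.mpr
    ⟨{ModularGroup.S, ModularGroup.T}, SpecialLinearGroup.SL2Z_generators, Set.toFinite _⟩
  have : Group.FG ↥(Gamma0 N) := Subgroup.fg_of_index_ne_zero _
  obtain ⟨X, hXtop, hXfin⟩ := Group.fg_iff.mp (inferInstance : Group.FG ↥(Gamma0 N))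
  let pts : Set ℍ := insert UpperHalfPlane.I
    ((fun γ : ↥(Gamma0 N) => mapGL ℝ (γ : SL(2, ℤ)) • UpperHalfPlane.I) '' X)
  have hpts : pts.Finite := (hXfin.image _).insert _
  let E : Set (Module.Dual ℂ (CuspForm (Gamma0 N) ((n : ℤ) + 2))) :=
    (fun x : ℕ × ℍ => epsFun N n x.1 x.2) '' ((Finset.range (n + 1) : Set ℕ) ×ˢ pts)
  have hE : E.Finite := ((Finset.finite_toSet _).prod hpts).image _
  have hL₀ : (Submodule.span ℤ E).FG := Submodule.fg_span hE
  refine hL₀.of_le ?_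
  have claim : ∀ γ : ↥(Gamma0 N), ∀ w : Fin 2 → ℤ,
      piFun N n (γ : SL(2, ℤ)) (intVec w) ∈ Submodule.span ℤ E := by
    intro γ
    have hγ : γ ∈ Subgroup.closure X := by rw [hXtop]; trivial
    induction hγ using Subgroup.closure_induction with
    | mem x hx =>
      intro w
      rw [piFun_intVec_eq]
      refine Submodule.sub_mem _ (Submodule.sum_mem _ fun m hm => Submodule.smul_mem _ _
        (Submodule.subset_span ⟨(m, _), ⟨hm, Or.inr ⟨x, hx, rfl⟩⟩, rfl⟩))
        (Submodule.sum_mem _ fun m hm => Submodule.smul_mem _ _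
          (Submodule.subset_span ⟨(m, _), ⟨hm, Or.inl rfl⟩, rfl⟩))
    | one =>
      intro w
      simp [piFun_one]
    | mul x y _ _ hx hy =>
      intro w
      rw [Subgroup.coe_mul, piFun_mul N n x.2]
      exact add_mem (hx _) (hy w)
    | inv x _ hx =>
      intro w
      rw [Subgroup.coe_inv, piFun_inv N n x.2]
      exact neg_mem (hx _)
  refine Submodule.span_le.mpr ?_
  rintro π ⟨γ, hγ, w, rfl⟩
  exact claim ⟨γ, hγ⟩ w

end

end Fermat.Agent.S22.H8
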