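/-
S22, route B, helper8: the lattice of modular symbols is stable under the Hecke operators.
-/
import Fermat.Agent.S22.H8.Lattice
import Fermat.Prelude.Sol.S_ModularForm_heckeT_slash_eq_self_of_mem_Gamma0

set_option autoImplicit false

open UpperHalfPlane Filter Topology CongruenceSubgroup Matrix.SpecialLinearGroup
open scoped MatrixGroups Manifold ModularForm
open P2MW.S_ModularForm_heckeT_slash_eq_self_of_mem_Gamma0.ModularForm.HeckeSlashInvariance

namespace Fermat.Agent.S22.H8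

noncomputable section

variable (N : ℕ) [NeZero N] (n : ℕ)

/-- Abstract stability statement: an operator which is a sum of slashes by integral matrices
mapping vertical rays to vertical rays, and whose matrices are permuted by `Γ₀(N)` up to
left multiplication by `Γ₀(N)`, preserves the lattice of modular symbols. -/
theorem Lat_stable_of_hecke {ι : Type*} [Fintype ι] (α : ι → GL (Fin 2) ℝ)
    (hdet : ∀ i, 0 < (α i).det.val)
    (hray : ∀ i, ∃ r x : ℝ, 0 < r ∧ ∀ z : ℂ, mob (α i) z = r * z + x)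
    (hint : ∀ i, ∀ w : Fin 2 → ℤ, ∃ w' : Fin 2 → ℤ, actV (α i) (intVec w) = intVec w')
    (T : Module.End ℂ (CuspForm (Gamma0 N) ((n : ℤ) + 2)))
    (hT : ∀ f, (T f : ℍ → ℂ) = ∑ i, (f : ℍ → ℂ) ∣[(n : ℤ) + 2] α i)
    (hperm : ∀ γ ∈ Gamma0 N, ∃ σ : Equiv.Perm ι, ∀ i, ∃ γ' ∈ Gamma0 N,
      α i * mapGL ℝ γ = mapGL ℝ γ' * α (σ i)) :
    ∀ π ∈ Lat N n, π ∘ₗ T ∈ Lat N n := by
  intro π hπ
  induction hπ using Submodule.span_induction with
  | mem π hπ =>
    obtain ⟨γ, hγ, w, rfl⟩ := hπ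
    obtain ⟨σ, hσ⟩ := hperm γ hγ
    choose γ' hγ' hmul using hσ
    choose w' hw' using fun i => hint (σ i) w
    have key : piFun N n γ (intVec w) ∘ₗ T = ∑ i, piFun N n (γ' i) (intVec (w' i)) := by
      ext f
      simp only [LinearMap.comp_apply, piFun_apply, LinearMap.coe_sum, Finset.sum_apply]
      rw [msym_hecke α hdet hray (isGood_cuspForm f) (isGood_cuspForm (T f)) (hT f)
        (mapGL ℝ γ) (det_mapGL_pos γ) σ (fun i => mapGL ℝ (γ' i)) (fun i => det_mapGL_pos _)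
        (fun i => slash_mapGL_eq N f (hγ' i)) hmul]
      simp only [hw']
    rw [key]
    exact Submodule.sum_mem _ fun i _ => Submodule.subset_span ⟨γ' i, hγ' i, w' i, rfl⟩
  | zero => simp
  | add x y _ _ hx hy =>
    rw [LinearMap.add_comp]
    exact add_mem hx hy
  | smul a x _ hx =>
    rw [LinearMap.smul_comp]
    exact Submodule.smul_mem _ _ hx

omit [NeZero N] in
theorem mem_Gamma0_iff_dvd {γ : SL(2, ℤ)} : γ ∈ Gamma0 N ↔ (N : ℤ) ∣ γ 1 0 := by
  rw [CongruenceSubgroup.Gamma0_mem, ZMod.intCast_zmod_eq_zero_iff_dvd]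

theorem mob_heckeMatrix {p : ℕ} (hp : p ≠ 0) (j : ℕ) (z : ℂ) :
    mob (ModularForm.heckeMatrix p j) z = ((1 / p : ℝ) : ℂ) * z + ((j / p : ℝ) : ℂ) := by
  have hp' : (p : ℂ) ≠ 0 := by exact_mod_cast hp
  simp only [mob, num, denom, ModularForm.val_heckeMatrix hp]
  simp
  field_simp

theorem mob_heckeDiagMatrix {p : ℕ} (hp : p ≠ 0) (z : ℂ) :
    mob (ModularForm.heckeDiagMatrix p) z = ((p : ℝ) : ℂ) * z + ((0 : ℝ) : ℂ) := by
  simp only [mob, num, denom, ModularForm.val_heckeDiagMatrix hp]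
  simp

theorem actV_heckeMatrix {p : ℕ} (hp : p ≠ 0) (j : ℕ) (w : Fin 2 → ℤ) :
    actV (ModularForm.heckeMatrix p j) (intVec w) = intVec ![w 0 + j * w 1, p * w 1] := by
  funext i
  fin_cases i
  · simp [actV_apply_zero, intVec, ModularForm.val_heckeMatrix hp]
  · simp [actV_apply_one, intVec, ModularForm.val_heckeMatrix hp]

theorem actV_heckeDiagMatrix {p : ℕ} (hp : p ≠ 0) (w : Fin 2 → ℤ) :
    actV (ModularForm.heckeDiagMatrix p) (intVec w) = intVec ![p * w 0, w 1] := by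
  funext i
  fin_cases i
  · simp [actV_apply_zero, intVec, ModularForm.val_heckeDiagMatrix hp]
  · simp [actV_apply_one, intVec, ModularForm.val_heckeDiagMatrix hp]

/-- The lattice of modular symbols is stable under `T_p`, `p ∤ N`. -/
theorem Lat_stable_T {p : ℕ} (hp : p.Prime) (hpN : ¬ p ∣ N) :
    ∀ π ∈ Lat N n, π ∘ₗ CuspForm.heckeTLin ((n : ℤ) + 2) hp hpN ∈ Lat N n := by
  have : Fact p.Prime := ⟨hp⟩
  have hp0 : p ≠ 0 := hp.ne_zero
  refine Lat_stable_of_hecke N n (heckeRep p) ?_ ?_ ?_ _ ?_ ?_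
  · intro x
    induction x using OnePoint.rec with
    | infty => exact ModularForm.det_heckeDiagMatrix_pos p
    | coe j => exact ModularForm.det_heckeMatrix_pos p j.val
  · intro x
    induction x using OnePoint.rec with
    | infty => exact ⟨p, 0, by exact_mod_cast hp.pos, fun z => mob_heckeDiagMatrix hp0 z⟩
    | coe j => exact ⟨1 / p, j.val / p, by positivity, fun z => mob_heckeMatrix hp0 j.val z⟩
  · intro x w
    induction x using OnePoint.rec with
    | infty => exact ⟨_, actV_heckeDiagMatrix hp0 w⟩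
    | coe j => exact ⟨_, actV_heckeMatrix hp0 j.val w⟩
  · intro f
    rw [CuspForm.coe_heckeTLin_apply, heckeT_eq_sum_onePoint]
  · intro γ hγ
    refine ⟨MulAction.toPerm (redMatrix p γ), fun x => ?_⟩
    obtain ⟨g', hg', hmul⟩ := heckeRep_mul hpN γ ((mem_Gamma0_iff_dvd N).mp hγ) x
    exact ⟨g', (mem_Gamma0_iff_dvd N).mpr hg', hmul⟩

/-- The lattice of modular symbols is stable under `U_q`, `q ∣ N`. -/
theorem Lat_stable_U {q : ℕ} (hq : q.Prime) (hqN : q ∣ N) :
    ∀ π ∈ Lat N n, π ∘ₗ CuspForm.heckeULin ((n : ℤ) + 2) hqN ∈ Lat N n := by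
  have : NeZero q := ⟨hq.ne_zero⟩
  have hq0 : q ≠ 0 := hq.ne_zero
  refine Lat_stable_of_hecke N n (fun x : ZMod q => ModularForm.heckeMatrix q x.val)
    (fun x => ModularForm.det_heckeMatrix_pos q x.val)
    (fun x => ⟨1 / q, x.val / q, by positivity, fun z => mob_heckeMatrix hq0 x.val z⟩)
    (fun x w => ⟨_, actV_heckeMatrix hq0 x.val w⟩) _ ?_ ?_
  · intro f
    rw [CuspForm.coe_heckeULin_apply, heckeU_eq_sum_zmod]
  · intro γ hγ
    have hN : (N : ℤ) ∣ γ 1 0 := (mem_Gamma0_iff_dvd N).mp hγ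
    have hc : (q : ℤ) ∣ γ 1 0 := (Int.natCast_dvd_natCast.mpr hqN).trans hN
    refine ⟨affinePerm γ ((ZMod.intCast_zmod_eq_zero_iff_dvd _ _).mpr hc), fun x => ?_⟩
    obtain ⟨g', hg', hmul⟩ := heckeMatrix_mul_of_dvd γ hc x
    exact ⟨g', (mem_Gamma0_iff_dvd N).mpr (hg' ▸ Dvd.dvd.mul_left hN _), hmul⟩

end

end Fermat.Agent.S22.H8
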